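import Mathlib.NumberTheory.ModularForms.CongruenceSubgroups
import Mathlib.NumberTheory.Modular
import Mathlib.GroupTheory.GroupAction.Quotient

set_option autoImplicit false
open CongruenceSubgroup
open scoped MatrixGroups

namespace Fermat.Agent.S21

/-- Number of orbits of the cyclic group generated by `g` on `SL(2,ℤ) ⧸ Γ₀(N)`. -/
noncomputable def orbitCount (N : ℕ) (g : SL(2, ℤ)) : ℕ :=
  Nat.card (MulAction.orbitRel.Quotient (Subgroup.zpowers g) (SL(2, ℤ) ⧸ Gamma0 N))

/-- `2 + μ - o_S - o_{ST} - o_T`, twice the genus of `X₀(N)` in orbit-count form. -/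
noncomputable def twoGenus (N : ℕ) : ℤ :=
  2 + (Nat.card (SL(2, ℤ) ⧸ Gamma0 N) : ℤ) - orbitCount N ModularGroup.S
    - orbitCount N (ModularGroup.S * ModularGroup.T) - orbitCount N ModularGroup.T

end Fermat.Agent.S21
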