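import Fermat.Prelude.Def_ModularCurve_PeriodHomPair
import Fermat.Agent.S21.Defs
import Fermat.Prelude.Thm_Subgroup_IsArithmetic_exists_nat_mem_strictPeriods_conj
import Mathlib

set_option autoImplicit false
open ModularCurve ModularCurve.Period UpperHalfPlane CongruenceSubgroup Filter Topology
open scoped MatrixGroups Manifold ModularForm

namespace Fermat.Agent.S21

local notation "𝕢" => Function.Periodic.qParam

/-- A holomorphic `h`-periodic function on `ℍ` vanishing at `i∞` has a primitive vanishing at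
`i∞`. -/
theorem exists_primitive_of_periodic {h : ℝ} (hh : 0 < h) {φ : ℍ → ℂ}
    (hper : Function.Periodic (φ ∘ ofComplex) h) (hhol : MDiff φ) (hzero : IsZeroAtImInfty φ) :
    ∃ Φ : ℍ → ℂ, (∀ τ : ℍ, HasDerivAt (Φ ∘ ofComplex) (φ τ) ↑τ) ∧ Tendsto Φ atImInfty (𝓝 0) := by
  have hbdd : IsBoundedAtImInfty φ := hzero.boundedAtFilter
  have hc : DifferentiableOn ℂ (cuspFunction h φ) (Metric.ball 0 1) :=
    differentiableOn_cuspFunction_ball hh hper hhol hbdd
  have hc0 : cuspFunction h φ 0 = 0 := by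
    rw [cuspFunction_apply_zero hh (analyticAt_cuspFunction_zero hh hper hhol hbdd) hper]
    exact hzero.valueAtInfty_eq_zero
  have hd : DifferentiableOn ℂ (dslope (cuspFunction h φ) 0) (Metric.ball 0 1) :=
    (Complex.differentiableOn_dslope (Metric.ball_mem_nhds 0 one_pos)).mpr hc
  obtain ⟨Ψ, hΨ⟩ := hd.isExactOn_ball
  have hpi : (2 * (Real.pi : ℂ) * Complex.I) ≠ 0 := Complex.two_pi_I_ne_zero
  have hhC : (h : ℂ) ≠ 0 := by exact_mod_cast hh.ne'
  refine ⟨fun τ => (h / (2 * Real.pi * Complex.I)) * (Ψ (𝕢 h τ) - Ψ 0), fun τ => ?_, ?_⟩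
  · have hq1 : ‖𝕢 h (τ : ℂ)‖ < 1 := Function.Periodic.norm_qParam_lt_one hh τ.im_pos
    have hq0 : 𝕢 h (τ : ℂ) ≠ 0 := Function.Periodic.qParam_ne_zero _
    have h1 : HasDerivAt (𝕢 h) (𝕢 h (τ : ℂ) * (2 * Real.pi * Complex.I / h)) (τ : ℂ) := by
      unfold Function.Periodic.qParam
      have : HasDerivAt (fun z : ℂ => 2 * Real.pi * Complex.I * z / h)
          (2 * Real.pi * Complex.I / h) (τ : ℂ) := by
        simpa using ((hasDerivAt_id (τ : ℂ)).const_mul (2 * Real.pi * Complex.I)).div_const (h : ℂ)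
      exact this.cexp
    have h2 := (hΨ (𝕢 h (τ : ℂ)) (by simpa using hq1)).comp (τ : ℂ) h1
    have h3 : HasDerivAt (fun z : ℂ => (h / (2 * Real.pi * Complex.I)) * (Ψ (𝕢 h z) - Ψ 0))
        (φ τ) (τ : ℂ) := by
      have h4 := (h2.sub_const (Ψ 0)).const_mul ((h : ℂ) / (2 * Real.pi * Complex.I))
      have h5 : 𝕢 h (τ : ℂ) * dslope (cuspFunction h φ) 0 (𝕢 h (τ : ℂ)) = φ τ := by
        have := sub_smul_dslope (cuspFunction h φ) 0 (𝕢 h (τ : ℂ))
        rw [hc0, sub_zero, sub_zero, eq_cuspFunction τ hh.ne' hper] at this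
        simpa using this
      have h6 : φ τ = (↑h / (2 * ↑Real.pi * Complex.I) *
          (dslope (cuspFunction h φ) 0 (𝕢 h ↑τ) * (𝕢 h ↑τ * (2 * ↑Real.pi * Complex.I / ↑h)))) := by
        rw [← h5]
        field_simp
      rw [h6]
      exact h4
    refine h3.congr_of_eventuallyEq ?_
    filter_upwards [isOpen_upperHalfPlaneSet.mem_nhds τ.im_pos] with z hz
    simp [Function.comp, ofComplex_apply_of_im_pos hz]
  · have hcont : ContinuousAt Ψ 0 := (hΨ 0 (by simp)).continuousAt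
    have h1 : Tendsto (fun τ : ℍ => Ψ (𝕢 h τ)) atImInfty (𝓝 (Ψ 0)) :=
      hcont.tendsto.comp (qParam_tendsto_atImInfty hh)
    have h2 := (h1.sub_const (Ψ 0)).const_mul ((h : ℂ) / (2 * Real.pi * Complex.I))
    simpa using h2

theorem exists_conj_upper (γ : SL(2, ℤ))
    (htr : (γ : Matrix (Fin 2) (Fin 2) ℤ).trace ^ 2 = 4) :
    ∃ δ : SL(2, ℤ), (δ⁻¹ * γ * δ) 1 0 = 0 := by
  have hdet : γ 0 0 * γ 1 1 - γ 0 1 * γ 1 0 = 1 := by
    have := γ.det_coe
    rwa [Matrix.det_fin_two] at this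
  rw [Matrix.trace_fin_two] at htr
  by_cases hc : γ 1 0 = 0
  · exact ⟨1, by simpa using hc⟩
  obtain ⟨ε, hε, hε2⟩ : ∃ ε : ℤ, γ 0 0 + γ 1 1 = 2 * ε ∧ ε ^ 2 = 1 := by
    have h : (γ 0 0 + γ 1 1 - 2) * (γ 0 0 + γ 1 1 + 2) = 0 := by linear_combination htr
    rcases mul_eq_zero.mp h with h | h
    · exact ⟨1, by linarith, by norm_num⟩
    · exact ⟨-1, by linarith, by norm_num⟩
  have hpos : 0 < Int.gcd (γ 1 0) (ε - γ 0 0) :=
    Int.gcd_pos_of_ne_zero_left _ hc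
  obtain ⟨g, c', e', hg, hcop, hc', he'⟩ := Int.exists_gcd_one' hpos
  have hcop' : IsCoprime (-e') c' := by
    rw [IsCoprime.neg_left_iff, isCoprime_comm]
    exact Int.isCoprime_iff_gcd_eq_one.mpr hcop
  obtain ⟨δ, h0, h1⟩ := hcop'.exists_SL2_col 0
  refine ⟨δ, ?_⟩
  have hval : (δ⁻¹ * γ * δ) 1 0 =
      -(δ 1 0) * (γ 0 0 * δ 0 0 + γ 0 1 * δ 1 0) + δ 0 0 * (γ 1 0 * δ 0 0 + γ 1 1 * δ 1 0) := by
    simp [Matrix.SpecialLinearGroup.coe_mul, Matrix.SpecialLinearGroup.coe_inv,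
      Matrix.adjugate_fin_two, Matrix.mul_apply, Fin.sum_univ_two, Matrix.vecMul, dotProduct]
    ring
  rw [hval, h0, h1]
  have hg0 : (g : ℤ) ≠ 0 := by exact_mod_cast hg.ne'
  have key : (g : ℤ) ^ 2 * (-c' * (γ 0 0 * -e' + γ 0 1 * c') + -e' * (γ 1 0 * -e' + γ 1 1 * c')) = 0 := by
    have h1 : γ 1 1 = 2 * ε - γ 0 0 := by linarith
    have h2 : (ε - γ 0 0) ^ 2 = - (γ 0 1 * γ 1 0) := by
      rw [h1] at hdet
      nlinarith
    have : (g : ℤ) ^ 2 * (-c' * (γ 0 0 * -e' + γ 0 1 * c') + -e' * (γ 1 0 * -e' + γ 1 1 * c'))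
        = (c' * g) * (e' * g) * γ 0 0 - γ 0 1 * (c' * g) ^ 2 + γ 1 0 * (e' * g) ^ 2
          - γ 1 1 * (c' * g) * (e' * g) := by ring
    rw [this, ← hc', ← he', h1]
    linear_combination (-γ 1 0) * h2
  exact (mul_eq_zero.mp key).resolve_left (pow_ne_zero 2 hg0)

theorem hasDerivAt_comp_smul {F φ : ℍ → ℂ}
    (hF : ∀ τ : ℍ, HasDerivAt (F ∘ ofComplex) (φ τ) ↑τ) (δ : SL(2, ℤ)) (w : ℍ) :
    HasDerivAt ((fun w : ℍ => F (δ • w)) ∘ ofComplex) ((φ ∣[(2 : ℤ)] δ) w) ↑w := by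
  have hdet1 : ((δ : GL (Fin 2) ℝ)).val.det = 1 := by
    rw [← Matrix.GeneralLinearGroup.val_det_apply]; simp
  have hdet : 0 < ((δ : GL (Fin 2) ℝ)).val.det := by rw [hdet1]; exact one_pos
  have h_smul := (hasStrictDerivAt_smul hdet w).hasDerivAt
  have h1 : HasDerivAt (F ∘ ofComplex) (φ ((δ : GL (Fin 2) ℝ) • w))
      ↑((δ : GL (Fin 2) ℝ) • ofComplex (w : ℂ)) := by
    rw [ofComplex_apply]; exact hF _
  have h2 := h1.comp (w : ℂ) h_smul
  have h3 : ((fun w : ℍ => F (δ • w)) ∘ ofComplex) =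
      ((F ∘ ofComplex) ∘ fun z : ℂ => (↑((δ : GL (Fin 2) ℝ) • ofComplex z) : ℂ)) := by
    funext z
    simp [Function.comp]
  have h4 : (φ ∣[(2 : ℤ)] δ) w = (φ ((δ : GL (Fin 2) ℝ) • w) *
      (↑((δ : GL (Fin 2) ℝ)).val.det / denom (δ : GL (Fin 2) ℝ) ↑w ^ 2)) := by
    rw [ModularForm.SL_slash, ModularForm.slash_apply, hdet1]
    simp [σ]
  rw [h3, h4]
  exact h2

theorem const_of_hasDerivAt_zero {H : ℍ → ℂ}
    (hH : ∀ τ : ℍ, HasDerivAt (H ∘ ofComplex) 0 ↑τ) (z w : ℍ) : H z = H w := by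
  have hopen : IsOpen upperHalfPlaneSet := isOpen_upperHalfPlaneSet
  have hconn : IsPreconnected upperHalfPlaneSet := (convex_halfSpace_im_gt 0).isPreconnected
  have hd : DifferentiableOn ℂ (H ∘ ofComplex) upperHalfPlaneSet := fun x hx =>
    (hH ⟨x, hx⟩).differentiableAt.differentiableWithinAt
  have hd' : upperHalfPlaneSet.EqOn (deriv (H ∘ ofComplex)) 0 := fun x hx => (hH ⟨x, hx⟩).deriv
  have := hopen.is_const_of_deriv_eq_zero hconn hd hd' z.im_pos w.im_pos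
  simpa using this

variable (N : ℕ) [NeZero N]

theorem slash_primitive (f : CuspForm (Gamma0 N) 2) (δ : SL(2, ℤ)) :
    ∃ Φ : ℍ → ℂ, (∀ τ : ℍ, HasDerivAt (Φ ∘ ofComplex) (((f : ℍ → ℂ) ∣[(2 : ℤ)] δ) τ) ↑τ) ∧
      Tendsto Φ atImInfty (𝓝 0) := by
  obtain ⟨M, hM, hper⟩ := Subgroup.IsArithmetic.exists_nat_mem_strictPeriods_conj
    (Subgroup.map (Matrix.SpecialLinearGroup.mapGL ℝ) (Gamma0 N))
  have h := hper δ⁻¹
  have hperiodic : Function.Periodic
      ((CuspForm.translate f (Matrix.SpecialLinearGroup.mapGL ℝ δ)) ∘ ofComplex) (M : ℝ) :=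
    SlashInvariantFormClass.periodic_comp_ofComplex _ (by simpa using h)
  have hMpos : (0 : ℝ) < M := by exact_mod_cast hM
  exact exists_primitive_of_periodic hMpos hperiodic
    ((CuspFormClass.holo f).slash 2 _) (CuspFormClass.zero_at_infty_slash f δ)

theorem exists_primitive (f : CuspForm (Gamma0 N) 2) :
    ∃ F : ℍ → ℂ, HasEquivariantPrimitive N f F := by
  obtain ⟨F, hF, hF0⟩ := slash_primitive N f 1
  have hF' : ∀ τ : ℍ, HasDerivAt (F ∘ ofComplex) (f τ) ↑τ := by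
    intro τ
    have := hF τ
    rwa [SlashAction.slash_one] at this
  refine ⟨F, hF', hF0, fun γ => ⟨F ((γ : SL(2, ℤ)) • I) - F I, fun z => ?_⟩, fun δ => ?_⟩
  · have hinv : (f : ℍ → ℂ) ∣[(2 : ℤ)] (γ : SL(2, ℤ)) = f := by
      rw [ModularForm.SL_slash]
      exact SlashInvariantFormClass.slash_action_eq f _ (Subgroup.mem_map_of_mem _ γ.2)
    have hz : ∀ τ : ℍ, HasDerivAt ((fun w : ℍ => F ((γ : SL(2, ℤ)) • w) - F w) ∘ ofComplex) 0 ↑τ := by
      intro τ
      have h1 := hasDerivAt_comp_smul hF' (γ : SL(2, ℤ)) τ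
      rw [hinv] at h1
      have h2 := h1.sub (hF' τ)
      rw [sub_self] at h2
      exact h2
    exact const_of_hasDerivAt_zero hz z I
  · obtain ⟨Φ, hΦ, hΦ0⟩ := slash_primitive N f δ
    have hz : ∀ τ : ℍ, HasDerivAt ((fun w : ℍ => F (δ • w) - Φ w) ∘ ofComplex) 0 ↑τ := by
      intro τ
      have h2 := (hasDerivAt_comp_smul hF' δ τ).sub (hΦ τ)
      rw [sub_self] at h2
      exact h2
    refine ⟨F (δ • I) - Φ I, ?_⟩
    have h3 : (fun w : ℍ => F (δ • w)) = fun w => Φ w + (F (δ • I) - Φ I) := by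
      funext w
      have := const_of_hasDerivAt_zero hz w I
      rw [← this]; ring
    rw [h3]
    simpa using hΦ0.add_const (F (δ • I) - Φ I)


variable {N}

omit [NeZero N] in
theorem primitive_unique {f : CuspForm (Gamma0 N) 2} {F F' : ℍ → ℂ}
    (h : HasEquivariantPrimitive N f F) (h' : HasEquivariantPrimitive N f F') : F = F' := by
  have hz : ∀ τ : ℍ, HasDerivAt ((fun w : ℍ => F w - F' w) ∘ ofComplex) 0 ↑τ := by
    intro τ
    have h2 := (h.1 τ).sub (h'.1 τ)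
    rw [sub_self] at h2
    exact h2
  have hc : ∀ w, F w - F' w = F I - F' I := fun w => const_of_hasDerivAt_zero hz w I
  have ht : Tendsto (fun w : ℍ => F w - F' w) atImInfty (𝓝 0) := by
    simpa using h.2.1.sub h'.2.1
  have h0 : F I - F' I = 0 := by
    have h2 : Tendsto (fun w : ℍ => F w - F' w) atImInfty (𝓝 (F I - F' I)) := by
      simp_rw [hc]; exact tendsto_const_nhds
    exact tendsto_nhds_unique h2 ht
  funext w
  have := hc w
  rw [h0] at this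
  exact sub_eq_zero.mp this

omit [NeZero N] in
theorem periodMap_apply {f : CuspForm (Gamma0 N) 2} {F : ℍ → ℂ}
    (hF : HasEquivariantPrimitive N f F) (γ : Gamma0 N) (z : ℍ) :
    periodMap N f (Additive.ofMul γ) = F ((γ : SL(2, ℤ)) • z) - F z := by
  obtain ⟨F₀, h₀, hp⟩ := periodMap_def N f hF
  obtain rfl : F₀ = F := primitive_unique h₀ hF
  rw [hp, IsEquivariantPrimitive.periodHom_apply, IsEquivariantPrimitive.sub_eq_period]

omit [NeZero N] in
theorem hasEquivariantPrimitive_add {f g : CuspForm (Gamma0 N) 2} {F G : ℍ → ℂ}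
    (hF : HasEquivariantPrimitive N f F) (hG : HasEquivariantPrimitive N g G) :
    HasEquivariantPrimitive N (f + g) (F + G) := by
  refine ⟨fun τ => (hF.1 τ).add (hG.1 τ),
    (by simpa using hF.2.1.add hG.2.1 : Tendsto (fun x => F x + G x) atImInfty (𝓝 0)), fun γ => ?_,
    fun δ => ?_⟩
  · obtain ⟨c, hc⟩ := hF.2.2.1 γ
    obtain ⟨d, hd⟩ := hG.2.2.1 γ
    refine ⟨c + d, fun z => ?_⟩
    simp only [Pi.add_apply]
    rw [← hc z, ← hd z]; ring
  · obtain ⟨L, hL⟩ := hF.2.2.2 δ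
    obtain ⟨L', hL'⟩ := hG.2.2.2 δ
    exact ⟨L + L', hL.add hL'⟩

omit [NeZero N] in
theorem hasEquivariantPrimitive_smul {f : CuspForm (Gamma0 N) 2} {F : ℍ → ℂ}
    (hF : HasEquivariantPrimitive N f F) (a : ℂ) :
    HasEquivariantPrimitive N (a • f) (a • F) := by
  refine ⟨fun τ => (hF.1 τ).const_smul a,
    (by simpa using hF.2.1.const_smul a : Tendsto (fun x => a • F x) atImInfty (𝓝 0)), fun γ => ?_,
    fun δ => ?_⟩
  · obtain ⟨c, hc⟩ := hF.2.2.1 γ
    refine ⟨a * c, fun z => ?_⟩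
    simp only [Pi.smul_apply, smul_eq_mul]
    rw [← hc z]; ring
  · obtain ⟨L, hL⟩ := hF.2.2.2 δ
    exact ⟨a • L, hL.const_smul a⟩

variable (N)

theorem periodMap_add (f g : CuspForm (Gamma0 N) 2) :
    periodMap N (f + g) = periodMap N f + periodMap N g := by
  obtain ⟨F, hF⟩ := exists_primitive N f
  obtain ⟨G, hG⟩ := exists_primitive N g
  refine AddMonoidHom.ext fun γ => ?_
  obtain ⟨γ, rfl⟩ := Additive.ofMul.surjective γ
  rw [AddMonoidHom.add_apply, periodMap_apply (hasEquivariantPrimitive_add hF hG) γ I, periodMap_apply hF γ I,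
    periodMap_apply hG γ I]
  simp only [Pi.add_apply]; ring

theorem periodMap_smul (a : ℂ) (f : CuspForm (Gamma0 N) 2) :
    periodMap N (a • f) = a • periodMap N f := by
  obtain ⟨F, hF⟩ := exists_primitive N f
  refine AddMonoidHom.ext fun γ => ?_
  obtain ⟨γ, rfl⟩ := Additive.ofMul.surjective γ
  rw [AddMonoidHom.smul_apply, periodMap_apply (hasEquivariantPrimitive_smul hF a) γ I, periodMap_apply hF γ I]
  simp only [Pi.smul_apply, smul_eq_mul]; ring

/-- The period map as a linear map. -/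
noncomputable def periodMapLinear : CuspForm (Gamma0 N) 2 →ₗ[ℂ] (Additive (Gamma0 N) →+ ℂ) where
  toFun := periodMap N
  map_add' := periodMap_add N
  map_smul' := periodMap_smul N

theorem existsPeriodMapLinear : ExistsPeriodMapLinear N := ⟨periodMapLinear N, fun _ => rfl⟩

theorem periodMap_mem_parabolicHoms (f : CuspForm (Gamma0 N) 2) :
    periodMap N f ∈ parabolicHoms ℂ (Gamma0 N) ℂ := by
  rw [mem_parabolicHoms_iff]
  intro γ hγ
  obtain ⟨F, hF⟩ := exists_primitive N f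
  obtain ⟨δ, hδ⟩ := exists_conj_upper (γ : SL(2, ℤ)) hγ
  obtain ⟨L, hL⟩ := hF.2.2.2 δ
  obtain ⟨g, hg⟩ : ∃ g : SL(2, ℤ), g = δ⁻¹ * (γ : SL(2, ℤ)) * δ := ⟨_, rfl⟩
  rw [← hg] at hδ
  have hup : (g : GL (Fin 2) ℝ) 1 0 = 0 := by
    simp [hδ]
  have ht : Tendsto (fun w : ℍ => g • w) atImInfty atImInfty :=
    tendsto_smul_atImInfty hup
  have h1 : Tendsto (fun w : ℍ => F (δ • (g • w))) atImInfty (𝓝 L) := hL.comp ht
  have h2 : ∀ w : ℍ, F (δ • (g • w)) - F (δ • w) = periodMap N f (Additive.ofMul γ) := by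
    intro w
    rw [periodMap_apply hF γ (δ • w), ← mul_smul, ← mul_smul, hg]
    congr 3
    group
  have h3 : Tendsto (fun _ : ℍ => periodMap N f (Additive.ofMul γ)) atImInfty (𝓝 (L - L)) :=
    (h1.sub hL).congr h2
  rw [sub_self] at h3
  exact tendsto_nhds_unique tendsto_const_nhds h3

end Fermat.Agent.S21
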