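import Fermat.Statements.S21
import Fermat.Agent.S21.Defs

set_option autoImplicit false
open ModularCurve ModularCurve.Period UpperHalfPlane CongruenceSubgroup Filter Topology
open scoped MatrixGroups Manifold

namespace Fermat.Agent.S21

section MaxPrinciple

open Function

/-- periodicity on `ℍ` gives periodicity of the extension by junk to `ℂ`. -/
theorem periodic_comp_ofComplex_of_vadd {h : ℝ} {g : ℍ → ℂ}
    (hper : ∀ w : ℍ, g (h +ᵥ w) = g w) : Periodic (g ∘ ofComplex) h := by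
  intro w
  by_cases hw : 0 < Complex.im w
  · have : 0 < Complex.im (w + h) := by simp [hw]
    simp only [comp_apply, ofComplex_apply_of_im_pos this, ofComplex_apply_of_im_pos hw]
    rw [← hper ⟨w, hw⟩]
    congr 1
    ext
    simp [add_comm]
  · have hw' : Complex.im w ≤ 0 := not_lt.mp hw
    have : Complex.im (w + h) ≤ 0 := by simpa using hw'
    simp [ofComplex_apply_of_im_nonpos this, ofComplex_apply_of_im_nonpos hw']

theorem mdiff_comp_smul {G : ℍ → ℂ} (hG : MDiff G) (δ : SL(2, ℤ)) :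
    MDiff (fun w : ℍ => G (δ • w)) := by
  have h1 : MDiff (fun τ : ℍ ↦ (Matrix.SpecialLinearGroup.mapGL ℝ δ : GL (Fin 2) ℝ) • τ) :=
    mdifferentiable_smul (by simp)
  exact hG.comp h1

theorem tendsto_vadd_atImInfty (x : ℝ) :
    Tendsto (fun w : ℍ => x +ᵥ w) atImInfty atImInfty := by
  rw [atImInfty, tendsto_comap_iff]
  have : (UpperHalfPlane.im ∘ fun w : ℍ => x +ᵥ w) = UpperHalfPlane.im := by
    funext w; simp
  rw [this]
  exact tendsto_comap

theorem conj_T_pow_mem_Gamma0 (N : ℕ) (δ : SL(2, ℤ)) :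
    δ * ModularGroup.T ^ (N : ℤ) * δ⁻¹ ∈ Gamma0 N := by
  have h1 : ModularGroup.T ^ (N : ℤ) ∈ Gamma N := by
    simpa using ModularGroup_T_pow_mem_Gamma (N : ℤ) (N : ℤ) dvd_rfl
  have h2 : δ * ModularGroup.T ^ (N : ℤ) * δ⁻¹ ∈ Gamma N := (Gamma_normal N).conj_mem _ h1 δ
  rw [Gamma_mem] at h2
  rw [Gamma0_mem]
  exact h2.2.2.1

/-- A holomorphic function with `exp ∘ G` constant is constant. -/
theorem const_of_exp_const {G : ℍ → ℂ} (hG : MDiff G) {C : ℂ}
    (hC : ∀ z : ℍ, Complex.exp (G z) = C) : ∃ c : ℂ, ∀ z, G z = c := by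
  have hd : DifferentiableOn ℂ (G ∘ ofComplex) {z | 0 < z.im} := mdifferentiable_iff.mp hG
  have hopen : IsOpen {z : ℂ | 0 < z.im} := isOpen_upperHalfPlaneSet
  have hconn : IsPreconnected {z : ℂ | 0 < z.im} :=
    (Complex.isConnected_of_upperHalfPlane subset_rfl (fun z (hz : 0 < z.im) => (le_of_lt hz : 0 ≤ z.im))).isPreconnected
  have hderiv : Set.EqOn (deriv (G ∘ ofComplex)) 0 {z | 0 < z.im} := by
    intro z hz
    have h1 : HasDerivAt (G ∘ ofComplex) (deriv (G ∘ ofComplex) z) z :=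
      ((hd z hz).differentiableAt (hopen.mem_nhds hz)).hasDerivAt
    have h2 := h1.cexp
    have h3 : (fun w => Complex.exp ((G ∘ ofComplex) w)) = fun _ => C := by
      funext w; exact hC _
    rw [h3] at h2
    have h4 := h2.unique (hasDerivAt_const z C)
    simpa [Complex.exp_ne_zero] using h4
  refine ⟨G I, fun z => ?_⟩
  have := hopen.is_const_of_deriv_eq_zero hconn hd hderiv z.im_pos I.im_pos
  simpa only [Function.comp_apply, ofComplex_apply] using this

/-- Maximum principle on `X₀(N)`: a holomorphic function on `ℍ` which is `Γ₀(N)`-invariant up to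
purely imaginary constants and has a limit at every cusp is constant. -/
theorem const_of_re_invariant (N : ℕ) [NeZero N] (G : ℍ → ℂ) (hG : MDiff G)
    (hinv : ∀ γ ∈ Gamma0 N, ∃ c : ℂ, c.re = 0 ∧ ∀ z : ℍ, G (γ • z) = G z + c)
    (hlim : ∀ δ : SL(2, ℤ), ∃ L : ℂ, Tendsto (fun w : ℍ => G (δ • w)) atImInfty (𝓝 L)) :
    ∃ c : ℂ, ∀ z, G z = c := by
  have hN : (0 : ℝ) < N := by exact_mod_cast Nat.pos_of_ne_zero (NeZero.ne N)
  -- Step 1: periodicity of the translates
  have hper : ∀ (δ : SL(2, ℤ)) (w : ℍ), G (δ • ((N : ℝ) +ᵥ w)) = G (δ • w) := by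
    intro δ
    obtain ⟨c, -, hc⟩ := hinv _ (conj_T_pow_mem_Gamma0 N δ)
    obtain ⟨L, hL⟩ := hlim δ
    have key : ∀ w : ℍ, G (δ • ((N : ℝ) +ᵥ w)) = G (δ • w) + c := by
      intro w
      rw [← hc (δ • w)]
      congr 1
      rw [← mul_smul, inv_mul_cancel_right, mul_smul, modular_T_zpow_smul]
      simp
    have h1 : Tendsto (fun w : ℍ => G (δ • ((N : ℝ) +ᵥ w))) atImInfty (𝓝 L) :=
      hL.comp (tendsto_vadd_atImInfty (N : ℝ))
    have h2 : Tendsto (fun w : ℍ => G (δ • ((N : ℝ) +ᵥ w))) atImInfty (𝓝 (L + c)) := by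
      simp_rw [key]
      exact hL.add_const c
    have h3 : L = L + c := tendsto_nhds_unique h1 h2
    have hc0 : c = 0 := by simpa using h3.symm
    intro w
    rw [key, hc0, add_zero]
  have hperC : ∀ δ : SL(2, ℤ), Periodic ((fun w : ℍ => G (δ • w)) ∘ ofComplex) (N : ℝ) :=
    fun δ => periodic_comp_ofComplex_of_vadd (hper δ)
  -- Step 2: cusp functions
  set Φ : SL(2, ℤ) → ℂ → ℂ := fun δ => cuspFunction (N : ℝ) (fun w : ℍ => G (δ • w)) with hΦ
  have hΦd : ∀ δ, DifferentiableOn ℂ (Φ δ) (Metric.ball 0 1) := by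
    intro δ
    obtain ⟨L, hL⟩ := hlim δ
    exact differentiableOn_cuspFunction_ball hN (hperC δ) (mdiff_comp_smul hG δ)
      (hL.isBigO_one ℝ)
  have hΦq : ∀ δ (w : ℍ), Φ δ (Periodic.qParam (N : ℝ) w) = G (δ • w) :=
    fun δ w => eq_cuspFunction w hN.ne' (hperC δ)
  set E : SL(2, ℤ) → ℂ → ℂ := fun δ q => Complex.exp (Φ δ q) with hE
  have hEd : ∀ δ, DifferentiableOn ℂ (E δ) (Metric.ball 0 1) := fun δ => (hΦd δ).cexp
  -- Step 3: radius
  set r : ℝ := Real.exp (-Real.pi / N) with hr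
  have hr0 : 0 ≤ r := (Real.exp_pos _).le
  have hr1 : r < 1 := by
    rw [hr, Real.exp_lt_one_iff]
    exact div_neg_of_neg_of_pos (by simpa using Real.pi_pos) hN
  have hqr : ∀ w : ℍ, 1 / 2 ≤ w.im → Periodic.qParam (N : ℝ) w ∈ Metric.closedBall (0 : ℂ) r := by
    intro w hw
    rw [mem_closedBall_zero_iff, Periodic.norm_qParam, hr, Real.exp_le_exp,
      div_le_div_iff_of_pos_right hN]
    have : (w : ℂ).im = w.im := rfl
    rw [this]
    nlinarith [Real.pi_pos]
  -- Step 4: maxima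
  have hmax : ∀ δ, ∃ q ∈ Metric.closedBall (0 : ℂ) r,
      IsMaxOn (fun q => ‖E δ q‖) (Metric.closedBall (0 : ℂ) r) q := fun δ =>
    (isCompact_closedBall (0 : ℂ) r).exists_isMaxOn (Metric.nonempty_closedBall.mpr hr0)
      ((hEd δ).continuousOn.mono (Metric.closedBall_subset_ball hr1)).norm
  choose qm hqm hqmax using hmax
  let D : SL(2, ℤ) ⧸ Gamma0 N → SL(2, ℤ) := fun x => (Quotient.out x)⁻¹
  obtain ⟨x₀, hx₀⟩ := Finite.exists_max (fun x : SL(2, ℤ) ⧸ Gamma0 N => ‖E (D x) (qm (D x))‖)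
  -- Step 5: global bound
  have hbound : ∀ z : ℍ, Real.exp (G z).re ≤ ‖E (D x₀) (qm (D x₀))‖ := by
    intro z
    obtain ⟨σ, hσ⟩ := ModularGroup.exists_one_half_le_im_smul z
    obtain ⟨γ, hγ⟩ := QuotientGroup.mk_out_eq_mul (Gamma0 N) σ
    obtain ⟨c, hc0, hc⟩ := hinv γ γ.2
    have hz : z = (γ : SL(2, ℤ)) • (D (σ : SL(2, ℤ) ⧸ Gamma0 N) • (σ • z)) := by
      simp only [D]
      rw [hγ, ← mul_smul, ← mul_smul]
      simp
    have h1 : (G z).re = (G (D (σ : SL(2, ℤ) ⧸ Gamma0 N) • (σ • z))).re := by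
      conv_lhs => rw [hz, hc]
      simp [hc0]
    rw [h1, ← hΦq, ← Complex.norm_exp]
    exact (hqmax _ (hqr _ hσ)).trans (hx₀ _)
  -- Step 6: maximum modulus principle
  have hismax : IsMaxOn (norm ∘ E (D x₀)) (Metric.ball 0 1) (qm (D x₀)) := by
    intro q hq
    show ‖E (D x₀) q‖ ≤ ‖E (D x₀) (qm (D x₀))‖
    rcases eq_or_ne q 0 with rfl | hq0
    · exact hqmax (D x₀) (Metric.mem_closedBall_self hr0)
    · have him := Periodic.im_invQParam_pos_of_norm_lt_one hN (mem_ball_zero_iff.mp hq) hq0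
      have h1 : q = Periodic.qParam (N : ℝ) ((⟨_, him⟩ : ℍ) : ℂ) :=
        (Periodic.qParam_right_inv hN.ne' hq0).symm
      have h2 : ‖E (D x₀) q‖ = Real.exp (G (D x₀ • (⟨_, him⟩ : ℍ))).re := by
        rw [← Complex.norm_exp, ← hΦq, ← h1]
      rw [h2]
      exact hbound _
  have hconst := Complex.eq_const_of_exists_max (hEd (D x₀))
    (Metric.closedBall_subset_ball hr1 (hqm (D x₀))) hismax
  -- Step 7
  refine const_of_exp_const hG (C := E (D x₀) (qm (D x₀))) fun z => ?_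
  have hq : Periodic.qParam (N : ℝ) (((D x₀)⁻¹ • z : ℍ) : ℂ) ∈ Metric.ball (0 : ℂ) 1 := by
    rw [mem_ball_zero_iff]
    exact Periodic.norm_qParam_lt_one hN (im_pos _)
  have := hconst hq
  simp only [hE, const_apply] at this
  rw [hΦq, smul_inv_smul] at this
  exact this

end MaxPrinciple

section Reflection

open ComplexConjugate

/-- The reflection `z ↦ -conj z` of the upper half plane. -/
def refl (z : ℍ) : ℍ := ⟨-conj (z : ℂ), by simpa using z.im_pos⟩

@[simp] theorem coe_refl (z : ℍ) : (refl z : ℂ) = -conj (z : ℂ) := rfl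

@[simp] theorem refl_im (z : ℍ) : (refl z).im = z.im := by
  show (-conj (z : ℂ)).im = (z : ℂ).im
  simp

@[simp] theorem refl_refl (z : ℍ) : refl (refl z) = z := by
  ext; simp

theorem tendsto_refl : Tendsto refl atImInfty atImInfty := by
  rw [atImInfty, tendsto_comap_iff]
  have : (UpperHalfPlane.im ∘ refl) = UpperHalfPlane.im := by
    funext w; simp
  rw [this]
  exact tendsto_comap

theorem jConjSL_smul_refl (γ : SL(2, ℤ)) (z : ℍ) : jConjSL γ • refl z = refl (γ • z) := by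
  ext
  rw [coe_refl, coe_specialLinearGroup_apply, coe_specialLinearGroup_apply, coe_refl]
  simp only [jConjSL_coe, jConjMat_apply_zero_zero, jConjMat_apply_zero_one,
    jConjMat_apply_one_zero, jConjMat_apply_one_one, map_div₀, map_add, map_mul,
    algebraMap_int_eq, eq_intCast, Int.cast_neg, Complex.ofReal_neg, Complex.ofReal_intCast,
    map_intCast]
  rw [← neg_div]
  congr 1 <;> ring

/-- `B̃ z = conj (B (-conj z))`. -/
def tilde (B : ℍ → ℂ) (z : ℍ) : ℂ := conj (B (refl z))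

theorem hasDerivAt_tilde {B b : ℍ → ℂ} (h : ∀ τ : ℍ, HasDerivAt (B ∘ ofComplex) (b τ) τ) (τ : ℍ) :
    HasDerivAt (tilde B ∘ ofComplex) (-conj (b (refl τ))) τ := by
  have h1 : HasDerivAt (fun u : ℂ => (B ∘ ofComplex) (-u)) (b (refl τ) * -1) (conj (τ : ℂ)) :=
    HasDerivAt.comp (conj (τ : ℂ)) (h₂ := B ∘ ofComplex) (h (refl τ)) (hasDerivAt_neg _)
  have h2 := h1.conj_conj
  rw [Complex.conj_conj] at h2
  have h3 : conj (b (refl τ) * -1) = -conj (b (refl τ)) := by simp
  rw [h3] at h2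
  refine h2.congr_of_eventuallyEq ?_
  filter_upwards [isOpen_upperHalfPlaneSet.mem_nhds τ.im_pos] with w hw
  have hw' : 0 < (-conj w).im := by simpa using hw
  simp only [Function.comp_apply, tilde]
  congr 2
  rw [ofComplex_apply_of_im_pos hw, ofComplex_apply_of_im_pos hw']
  rfl

theorem mdiff_of_hasDerivAt {B b : ℍ → ℂ} (h : ∀ τ : ℍ, HasDerivAt (B ∘ ofComplex) (b τ) τ) :
    MDiff B := fun τ => mdifferentiableAt_iff.mpr (h τ).differentiableAt

theorem eq_zero_of_hasDerivAt_const {B b : ℍ → ℂ}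
    (h : ∀ τ : ℍ, HasDerivAt (B ∘ ofComplex) (b τ) τ) {c : ℂ} (hc : ∀ z, B z = c) (τ : ℍ) :
    b τ = 0 := by
  have h1 : (B ∘ ofComplex) = fun _ => c := by funext w; exact hc _
  have h2 := h τ
  rw [h1] at h2
  exact h2.unique (hasDerivAt_const _ c)

end Reflection

section Injective

open ComplexConjugate

variable (N : ℕ) [NeZero N]

theorem eq_zero_of_periods {a b : CuspForm (Gamma0 N) 2} {A B : ℍ → ℂ}
    (hA : HasEquivariantPrimitive N a A) (hB : HasEquivariantPrimitive N b B)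
    (h : ∀ (γ : Gamma0 N) (z : ℍ), (A ((γ : SL(2, ℤ)) • z) - A z) +
      (B (jConjSL (γ : SL(2, ℤ)) • refl z) - B (refl z)) = 0) : a = 0 ∧ b = 0 := by
  have hAd := mdiff_of_hasDerivAt hA.1
  have hBd : MDiff (tilde B) := mdiff_of_hasDerivAt (hasDerivAt_tilde hB.1)
  -- transformation behaviour
  have htr : ∀ γ ∈ Gamma0 N, ∃ p : ℂ, (∀ z, A (γ • z) = A z + p) ∧
      ∀ z, tilde B (γ • z) = tilde B z - conj p := by
    intro γ hγ
    obtain ⟨p, hp⟩ := hA.2.2.1 ⟨γ, hγ⟩
    refine ⟨p, fun z => by rw [← hp z]; ring, fun z => ?_⟩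
    have h1 := h ⟨γ, hγ⟩ z
    have h2 := hp z
    simp only at h1 h2
    rw [h2, jConjSL_smul_refl] at h1
    have h3 : B (refl (γ • z)) = B (refl z) - p := by linear_combination h1
    simp only [tilde, h3, map_sub]
  have hlimB : ∀ δ : SL(2, ℤ), ∃ L : ℂ, Tendsto (fun w : ℍ => tilde B (δ • w)) atImInfty (𝓝 L) := by
    intro δ
    obtain ⟨L, hL⟩ := hB.2.2.2 (jConjSL δ)
    refine ⟨conj L, ?_⟩
    have h1 : (fun w : ℍ => tilde B (δ • w)) = fun w => conj (B (jConjSL δ • refl w)) := by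
      funext w; simp only [tilde, jConjSL_smul_refl]
    rw [h1]
    exact (Complex.continuous_conj.tendsto L).comp (hL.comp tendsto_refl)
  obtain ⟨c₁, hc₁⟩ := const_of_re_invariant N (fun z => A z + tilde B z) (hAd.add hBd)
    (fun γ hγ => by
      obtain ⟨p, hp1, hp2⟩ := htr γ hγ
      refine ⟨p - conj p, by simp, fun z => ?_⟩
      simp only [hp1, hp2]; ring)
    (fun δ => by
      obtain ⟨L₁, hL₁⟩ := hA.2.2.2 δ
      obtain ⟨L₂, hL₂⟩ := hlimB δ
      exact ⟨L₁ + L₂, hL₁.add hL₂⟩)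
  obtain ⟨c₂, hc₂⟩ := const_of_re_invariant N (fun z => Complex.I * (A z - tilde B z))
    ((mdifferentiable_const (c := Complex.I)).mul (hAd.sub hBd))
    (fun γ hγ => by
      obtain ⟨p, hp1, hp2⟩ := htr γ hγ
      refine ⟨Complex.I * (p + conj p), by simp, fun z => ?_⟩
      simp only [hp1, hp2]; ring)
    (fun δ => by
      obtain ⟨L₁, hL₁⟩ := hA.2.2.2 δ
      obtain ⟨L₂, hL₂⟩ := hlimB δ
      exact ⟨Complex.I * (L₁ - L₂), (hL₁.sub hL₂).const_mul _⟩)
  have hAc : ∀ z, A z = (c₁ - Complex.I * c₂) / 2 := by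
    intro z
    have h1 := hc₁ z
    have h2 := hc₂ z
    rw [← h1, ← h2]
    have : Complex.I * (Complex.I * (A z - tilde B z)) = -(A z - tilde B z) := by
      rw [← mul_assoc, Complex.I_mul_I]; ring
    rw [this]; ring
  have hBc : ∀ z, tilde B z = (c₁ + Complex.I * c₂) / 2 := by
    intro z
    have h1 := hc₁ z
    have h2 := hc₂ z
    rw [← h1, ← h2]
    have : Complex.I * (Complex.I * (A z - tilde B z)) = -(A z - tilde B z) := by
      rw [← mul_assoc, Complex.I_mul_I]; ring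
    rw [this]; ring
  constructor
  · ext τ
    exact eq_zero_of_hasDerivAt_const hA.1 hAc τ
  · ext τ
    have := eq_zero_of_hasDerivAt_const (hasDerivAt_tilde hB.1) hBc (refl τ)
    simpa using this

/-- Injectivity of `periodHomPair`, from the three facts about primitives (piece P1). -/
theorem periodHomPair_injective_of
    (hex : ∀ f : CuspForm (Gamma0 N) 2, ∃ F : ℍ → ℂ, HasEquivariantPrimitive N f F)
    (happ : ∀ (f : CuspForm (Gamma0 N) 2) (F : ℍ → ℂ), HasEquivariantPrimitive N f F →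
      ∀ (γ : Gamma0 N) (z : ℍ),
        periodMap N f (Additive.ofMul γ) = F ((γ : SL(2, ℤ)) • z) - F z)
    (hlin : ExistsPeriodMapLinear N) : Function.Injective (periodHomPair N) := by
  obtain ⟨pml, hpml, hdef⟩ := periodHomPair_def N hlin
  rw [injective_iff_map_eq_zero]
  rintro ⟨f, g⟩ hfg
  obtain ⟨A, hA⟩ := hex (f + g)
  obtain ⟨B, hB⟩ := hex (f - g)
  have key : f + g = 0 ∧ f - g = 0 := by
    refine eq_zero_of_periods N hA hB fun γ z => ?_
    rw [← happ _ _ hA γ z]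
    have h1 := happ _ _ hB (jConjGamma0 N γ) (refl z)
    rw [jConjGamma0_coe] at h1
    rw [← h1, ← hpml, ← hpml]
    have h2 := DFunLike.congr_fun hfg (Additive.ofMul γ)
    rw [hdef] at h2
    simp only [LinearMap.coprod_apply, LinearMap.comp_apply, LinearMap.add_apply,
      LinearMap.sub_apply, LinearMap.id_apply, AddMonoidHom.add_apply, AddMonoidHom.sub_apply,
      charInvolution_apply, toMul_ofMul, AddMonoidHom.zero_apply] at h2
    simp only [map_add, map_sub, AddMonoidHom.add_apply, AddMonoidHom.sub_apply]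
    linear_combination h2
  obtain ⟨h1, h2⟩ := key
  have hf : f = 0 := by
    have : (2 : ℂ) • f = 0 := by
      rw [two_smul]
      calc f + f = (f + g) + (f - g) := by abel
        _ = 0 := by rw [h1, h2, add_zero]
    exact (smul_eq_zero.mp this).resolve_left two_ne_zero
  have hg : g = 0 := by simpa [hf] using h1
  rw [hf, hg]
  rfl

end Injective

end Fermat.Agent.S21
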