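import Mathlib
import Fermat.Prelude.Def_ModularCurve_PeriodMap
import Fermat.Agent.S21.Defs

set_option autoImplicit false
open ModularCurve.Period
open scoped MatrixGroups

namespace Fermat.Agent.S21.GroupBound

section Abstract

variable {G X : Type*} [Group G] [MulAction G X]

/-- orbit space of the cyclic group generated by `a` -/
abbrev Orb (X : Type*) [MulAction G X] (a : G) : Type _ :=
  MulAction.orbitRel.Quotient (Subgroup.zpowers a) X

/-- the class of a point in the orbit space -/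
def omk (a : G) (x : X) : Orb X a := Quotient.mk'' x

theorem omk_smul (a : G) (x : X) : omk a (a • x) = omk a x := by
  apply Quotient.sound'
  exact ⟨⟨a, Subgroup.mem_zpowers a⟩, rfl⟩

theorem omk_surj (a : G) : Function.Surjective (omk (X := X) a) := Quotient.mk''_surjective

variable [Fintype X]

/-- the pairing between orbit functions and pairs of functions -/
noncomputable def pairing (S T U : G) :
    ((Orb X S → ℂ) × (Orb X U → ℂ) × (Orb X T → ℂ)) →ₗ[ℂ] Module.Dual ℂ ((X → ℂ) × (X → ℂ)) :=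
  LinearMap.mk₂ ℂ (fun d e => ∑ x, (d.1 (omk S x) * e.1 x + d.2.1 (omk U x) * e.2 x
      + d.2.2 (omk T x) * (e.2 x - e.1 (T • x))))
    (by
      intro d d' e
      rw [← Finset.sum_add_distrib]
      refine Finset.sum_congr rfl fun x _ => ?_
      simp only [Prod.fst_add, Prod.snd_add, Pi.add_apply]
      ring)
    (by
      intro c d e
      rw [smul_eq_mul, Finset.mul_sum]
      refine Finset.sum_congr rfl fun x _ => ?_
      simp only [Prod.smul_fst, Prod.smul_snd, Pi.smul_apply, smul_eq_mul]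
      ring)
    (by
      intro d e e'
      rw [← Finset.sum_add_distrib]
      refine Finset.sum_congr rfl fun x _ => ?_
      simp only [Prod.fst_add, Prod.snd_add, Pi.add_apply]
      ring)
    (by
      intro c d e
      rw [smul_eq_mul, Finset.mul_sum]
      refine Finset.sum_congr rfl fun x _ => ?_
      simp only [Prod.smul_fst, Prod.smul_snd, Pi.smul_apply, smul_eq_mul]
      ring)

theorem pairing_apply (S T U : G) (d : (Orb X S → ℂ) × (Orb X U → ℂ) × (Orb X T → ℂ))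
    (e : (X → ℂ) × (X → ℂ)) :
    pairing S T U d e = ∑ x, (d.1 (omk S x) * e.1 x + d.2.1 (omk U x) * e.2 x
      + d.2.2 (omk T x) * (e.2 x - e.1 (T • x))) := rfl

/-- the constraint space -/
noncomputable def Wsub (S T U : G) : Submodule ℂ ((X → ℂ) × (X → ℂ)) :=
  (LinearMap.range (pairing (X := X) S T U)).dualCoannihilator

theorem mem_Wsub_of (S T U : G) (α β : X → ℂ)
    (hS : ∀ h : X → ℂ, (∀ x, h (S • x) = h x) → ∑ x, h x * α x = 0)
    (hU : ∀ h : X → ℂ, (∀ x, h (U • x) = h x) → ∑ x, h x * β x = 0)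
    (hT : ∀ h : X → ℂ, (∀ x, h (T • x) = h x) → ∑ x, h x * (β x - α (T • x)) = 0) :
    (α, β) ∈ Wsub S T U := by
  rw [Wsub, Submodule.mem_dualCoannihilator]
  rintro _ ⟨d, rfl⟩
  rw [pairing_apply, Finset.sum_add_distrib, Finset.sum_add_distrib,
    hS (fun x => d.1 (omk S x)) (fun x => by simp only [omk_smul]),
    hU (fun x => d.2.1 (omk U x)) (fun x => by simp only [omk_smul]),
    hT (fun x => d.2.2 (omk T x)) (fun x => by simp only [omk_smul])]
  simp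

theorem pairing_ker_aux [DecidableEq X] (S T U : G)
    (d : (Orb X S → ℂ) × (Orb X U → ℂ) × (Orb X T → ℂ)) (hd : pairing S T U d = 0) (y : X) :
    d.1 (omk S y) = d.2.2 (omk T y) ∧ d.2.1 (omk U y) = - d.2.2 (omk T y) := by
  constructor
  · have h := LinearMap.congr_fun hd (Pi.single y 1, 0)
    rw [pairing_apply] at h
    simp only [Pi.zero_apply, mul_zero, add_zero, zero_sub, mul_neg, LinearMap.zero_apply,
      Finset.sum_add_distrib, Finset.sum_neg_distrib] at h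
    have h1 : ∑ x, d.1 (omk S x) * (Pi.single y (1:ℂ) : X → ℂ) x = d.1 (omk S y) := by
      simp [Pi.single_apply]
    have h2 : ∑ x, d.2.2 (omk T x) * (Pi.single y (1:ℂ) : X → ℂ) (T • x) = d.2.2 (omk T y) := by
      rw [← Equiv.sum_comp (MulAction.toPerm T⁻¹)]
      simp only [MulAction.toPerm_apply, smul_inv_smul]
      have : ∀ x : X, omk T (T⁻¹ • x) = omk T x := fun x => by
        conv_rhs => rw [← smul_inv_smul T x, omk_smul]
      simp [Pi.single_apply, this]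
    rw [h1, h2] at h
    linear_combination h
  · have h := LinearMap.congr_fun hd (0, Pi.single y 1)
    rw [pairing_apply] at h
    simp only [Pi.zero_apply, mul_zero, zero_add, sub_zero, LinearMap.zero_apply,
      Finset.sum_add_distrib] at h
    have h1 : ∑ x, d.2.1 (omk U x) * (Pi.single y (1:ℂ) : X → ℂ) x = d.2.1 (omk U y) := by
      simp [Pi.single_apply]
    have h2 : ∑ x, d.2.2 (omk T x) * (Pi.single y (1:ℂ) : X → ℂ) x = d.2.2 (omk T y) := by
      simp [Pi.single_apply]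
    rw [h1, h2] at h
    linear_combination h

theorem finrank_ker_pairing_le (S T U : G) (x₀ : X)
    (hconst : ∀ n : X → ℂ, (∀ x, n (S • x) = n x) → (∀ x, n (T • x) = n x) → ∀ x, n x = n x₀) :
    Module.finrank ℂ (LinearMap.ker (pairing (X := X) S T U)) ≤ 1 := by
  classical
  let ev : LinearMap.ker (pairing (X := X) S T U) →ₗ[ℂ] ℂ :=
    { toFun := fun d => d.1.2.2 (omk T x₀)
      map_add' := fun d d' => rfl
      map_smul' := fun c d => rfl }
  have hinj : Function.Injective ev := by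
    rw [← LinearMap.ker_eq_bot, LinearMap.ker_eq_bot']
    rintro ⟨d, hd⟩ h0
    rw [LinearMap.mem_ker] at hd
    have h0' : d.2.2 (omk T x₀) = 0 := h0
    have haux := pairing_ker_aux S T U d hd
    have hn : ∀ x, d.2.2 (omk T x) = 0 := by
      intro x
      rw [hconst (fun x => d.2.2 (omk T x)) (fun x => by
        rw [← (haux (S • x)).1, ← (haux x).1, omk_smul]) (fun x => by simp only [omk_smul]) x, h0']
    apply Subtype.ext
    show d = 0
    refine Prod.ext ?_ (Prod.ext ?_ ?_)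
    · funext o
      obtain ⟨x, rfl⟩ := omk_surj S o
      rw [(haux x).1, hn]; rfl
    · funext o
      obtain ⟨x, rfl⟩ := omk_surj U o
      rw [(haux x).2, hn]; simp
    · funext o
      obtain ⟨x, rfl⟩ := omk_surj T o
      rw [hn]; rfl
  have := LinearMap.finrank_le_finrank_of_injective hinj
  simpa using this

theorem finrank_Wsub_le (S T U : G) (x₀ : X)
    (hconst : ∀ n : X → ℂ, (∀ x, n (S • x) = n x) → (∀ x, n (T • x) = n x) → ∀ x, n x = n x₀) :
    Module.finrank ℂ (Wsub (X := X) S T U) + (Nat.card (Orb X S) + Nat.card (Orb X U)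
      + Nat.card (Orb X T)) ≤ 2 * Nat.card X + 1 := by
  classical
  have : Fintype (Orb X S) := Fintype.ofFinite _
  have : Fintype (Orb X U) := Fintype.ofFinite _
  have : Fintype (Orb X T) := Fintype.ofFinite _
  have h1 := Subspace.finrank_add_finrank_dualCoannihilator_eq
    (LinearMap.range (pairing (X := X) S T U))
  have h2 := LinearMap.finrank_range_add_finrank_ker (pairing (X := X) S T U)
  have h3 := finrank_ker_pairing_le S T U x₀ hconst
  rw [Module.finrank_prod, Module.finrank_fintype_fun_eq_card] at h1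
  rw [Module.finrank_prod, Module.finrank_prod, Module.finrank_fintype_fun_eq_card,
    Module.finrank_fintype_fun_eq_card, Module.finrank_fintype_fun_eq_card] at h2
  simp only [Nat.card_eq_fintype_card]
  have h4 : Module.finrank ℂ (Wsub (X := X) S T U)
    = Module.finrank ℂ (LinearMap.range (pairing (X := X) S T U)).dualCoannihilator := rfl
  omega

end Abstract

variable (Γ : Subgroup SL(2, ℤ))

theorem kel_mem (a : SL(2, ℤ)) (x : SL(2, ℤ) ⧸ Γ) : (a • x).out⁻¹ * (a * x.out) ∈ Γ := by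
  rw [← QuotientGroup.eq, QuotientGroup.out_eq']
  conv_lhs => rw [← QuotientGroup.out_eq' x]
  rfl

/-- the element `s(a x)⁻¹ a s(x)` of `Γ` -/
noncomputable def kel (a : SL(2, ℤ)) (x : SL(2, ℤ) ⧸ Γ) : Γ :=
  ⟨(a • x).out⁻¹ * (a * x.out), kel_mem Γ a x⟩

theorem kel_mul (a b : SL(2, ℤ)) (x : SL(2, ℤ) ⧸ Γ) :
    kel Γ (a * b) x = kel Γ a (b • x) * kel Γ b x := by
  apply Subtype.ext
  simp only [kel, Subgroup.coe_mul, mul_smul]
  group

theorem kel_one (x : SL(2, ℤ) ⧸ Γ) : kel Γ 1 x = 1 := by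
  apply Subtype.ext
  simp [kel]

theorem coe_kel_of_fixed {a : SL(2, ℤ)} {x : SL(2, ℤ) ⧸ Γ} (h : a • x = x) :
    ((kel Γ a x : Γ) : SL(2, ℤ)) = x.out⁻¹ * a * x.out := by
  simp only [kel, h, mul_assoc]

/-- the (Shapiro) cocycle attached to `ψ` -/
noncomputable def coc (ψ : Additive Γ →+ ℂ) (a : SL(2, ℤ)) (x : SL(2, ℤ) ⧸ Γ) : ℂ :=
  ψ (Additive.ofMul (kel Γ a x))

theorem coc_mul (ψ : Additive Γ →+ ℂ) (a b : SL(2, ℤ)) (x : SL(2, ℤ) ⧸ Γ) :
    coc Γ ψ (a * b) x = coc Γ ψ a (b • x) + coc Γ ψ b x := by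
  simp only [coc, kel_mul, ofMul_mul, map_add]

theorem coc_one (ψ : Additive Γ →+ ℂ) (x : SL(2, ℤ) ⧸ Γ) : coc Γ ψ 1 x = 0 := by
  simp only [coc, kel_one, ofMul_one, map_zero]

theorem coc_pow (ψ : Additive Γ →+ ℂ) (a : SL(2, ℤ)) (n : ℕ) (x : SL(2, ℤ) ⧸ Γ) :
    coc Γ ψ (a ^ n) x = ∑ i ∈ Finset.range n, coc Γ ψ a (a ^ i • x) := by
  induction n with
  | zero => simp [coc_one]
  | succ n ih => rw [pow_succ', coc_mul, ih, Finset.sum_range_succ, add_comm]

theorem coc_eq_zero_of_torsion (ψ : Additive Γ →+ ℂ) {a : SL(2, ℤ)} {m : ℕ} (hm : 0 < m)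
    (ham : a ^ m = 1) {x : SL(2, ℤ) ⧸ Γ} (hx : a • x = x) : coc Γ ψ a x = 0 := by
  have hk : (kel Γ a x) ^ m = 1 := by
    apply Subtype.ext
    rw [Subgroup.coe_pow, coe_kel_of_fixed Γ hx]
    have : x.out⁻¹ * a * x.out = x.out⁻¹ * a * (x.out⁻¹)⁻¹ := by rw [inv_inv]
    rw [this, conj_pow, ham]
    simp
  have h2 : m • ψ (Additive.ofMul (kel Γ a x)) = 0 := by
    rw [← map_nsmul, ← ofMul_pow, hk, ofMul_one, map_zero]
  rw [nsmul_eq_mul] at h2
  rcases mul_eq_zero.mp h2 with h | h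
  · exact absurd (Nat.cast_eq_zero.mp h) hm.ne'
  · exact h

theorem coc_T_pow_eq_zero {ψ : Additive Γ →+ ℂ} (hψ : IsParabolicHom Γ ψ) (n : ℕ)
    {x : SL(2, ℤ) ⧸ Γ} (hx : ModularGroup.T ^ n • x = x) : coc Γ ψ (ModularGroup.T ^ n) x = 0 := by
  apply hψ
  rw [coe_kel_of_fixed Γ hx]
  have h1 : ((x.out⁻¹ * ModularGroup.T ^ n * x.out : SL(2, ℤ)) : Matrix (Fin 2) (Fin 2) ℤ).trace
      = ((ModularGroup.T ^ n : SL(2, ℤ)) : Matrix (Fin 2) (Fin 2) ℤ).trace := by
    rw [Matrix.SpecialLinearGroup.coe_mul, Matrix.trace_mul_comm,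
      ← Matrix.SpecialLinearGroup.coe_mul, mul_inv_cancel_left]
  rw [h1, ← zpow_natCast, ModularGroup.coe_T_zpow]
  simp [Matrix.trace_fin_two]



/-- the cocycle attached to `ψ`, twisted by the coboundary of `v` -/
noncomputable def tw (ψ : Additive Γ →+ ℂ) (v : SL(2, ℤ) ⧸ Γ → ℂ) (a : SL(2, ℤ))
    (x : SL(2, ℤ) ⧸ Γ) : ℂ :=
  coc Γ ψ a x + (v (a • x) - v x)

theorem tw_mul (ψ : Additive Γ →+ ℂ) (v : SL(2, ℤ) ⧸ Γ → ℂ) (a b : SL(2, ℤ))
    (x : SL(2, ℤ) ⧸ Γ) : tw Γ ψ v (a * b) x = tw Γ ψ v a (b • x) + tw Γ ψ v b x := by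
  simp only [tw, coc_mul, mul_smul]
  ring

theorem tw_one (ψ : Additive Γ →+ ℂ) (v : SL(2, ℤ) ⧸ Γ → ℂ) (x : SL(2, ℤ) ⧸ Γ) :
    tw Γ ψ v 1 x = 0 := by
  simp [tw, coc_one]

theorem tw_pow (ψ : Additive Γ →+ ℂ) (v : SL(2, ℤ) ⧸ Γ → ℂ) (a : SL(2, ℤ)) (n : ℕ)
    (x : SL(2, ℤ) ⧸ Γ) :
    tw Γ ψ v (a ^ n) x = ∑ i ∈ Finset.range n, tw Γ ψ v a (a ^ i • x) := by
  induction n with
  | zero => simp [tw_one]
  | succ n ih => rw [pow_succ', tw_mul, ih, Finset.sum_range_succ, add_comm]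

theorem tw_eq_zero_of_gen {ψ : Additive Γ →+ ℂ} {v : SL(2, ℤ) ⧸ Γ → ℂ}
    (hS : ∀ x, tw Γ ψ v ModularGroup.S x = 0) (hT : ∀ x, tw Γ ψ v ModularGroup.T x = 0)
    (a : SL(2, ℤ)) (x : SL(2, ℤ) ⧸ Γ) : tw Γ ψ v a x = 0 := by
  have ha : a ∈ Subgroup.closure {ModularGroup.S, ModularGroup.T} := by
    rw [SpecialLinearGroup.SL2Z_generators]; trivial
  induction ha using Subgroup.closure_induction generalizing x with
  | mem y hy =>
    rcases hy with rfl | hy
    · exact hS x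
    · rw [Set.mem_singleton_iff] at hy
      subst hy
      exact hT x
  | one => exact tw_one Γ ψ v x
  | mul a b _ _ iha ihb => rw [tw_mul, iha, ihb, add_zero]
  | inv a _ iha =>
    have h := tw_mul Γ ψ v a a⁻¹ x
    rw [mul_inv_cancel, tw_one, iha, zero_add] at h
    exact h.symm

/-- the base point -/
def x0 : SL(2, ℤ) ⧸ Γ := ((1 : SL(2, ℤ)) : SL(2, ℤ) ⧸ Γ)

theorem smul_x0 (a : SL(2, ℤ)) : a • x0 Γ = (a : SL(2, ℤ) ⧸ Γ) := by
  show ((a * 1 : SL(2, ℤ)) : SL(2, ℤ) ⧸ Γ) = _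
  rw [mul_one]

theorem out_smul_x0 (x : SL(2, ℤ) ⧸ Γ) : x.out • x0 Γ = x := by
  rw [smul_x0, QuotientGroup.out_eq']

theorem x0_out_mem : (x0 Γ).out ∈ Γ := by
  have h : (((x0 Γ).out : SL(2, ℤ)) : SL(2, ℤ) ⧸ Γ) = ((1 : SL(2, ℤ)) : SL(2, ℤ) ⧸ Γ) :=
    QuotientGroup.out_eq' _
  rw [QuotientGroup.eq] at h
  simpa using Γ.inv_mem h

theorem mem_smul_x0 (γ : Γ) : (γ : SL(2, ℤ)) • x0 Γ = x0 Γ := by
  rw [smul_x0, x0, QuotientGroup.eq]
  simp

theorem coc_mem_x0 (ψ : Additive Γ →+ ℂ) (γ : Γ) :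
    coc Γ ψ (γ : SL(2, ℤ)) (x0 Γ) = ψ (Additive.ofMul γ) := by
  have hk : kel Γ (γ : SL(2, ℤ)) (x0 Γ)
      = (⟨(x0 Γ).out, x0_out_mem Γ⟩ : Γ)⁻¹ * γ * ⟨(x0 Γ).out, x0_out_mem Γ⟩ := by
    apply Subtype.ext
    rw [coe_kel_of_fixed Γ (mem_smul_x0 Γ γ)]
    rfl
  rw [coc, hk, ofMul_mul, ofMul_mul, ofMul_inv, map_add, map_add, map_neg]
  ring

theorem eq_zero_of_tw_eq_zero {ψ : Additive Γ →+ ℂ} {v : SL(2, ℤ) ⧸ Γ → ℂ}
    (h : ∀ a x, tw Γ ψ v a x = 0) : ψ = 0 ∧ ∀ x, v x = v (x0 Γ) := by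
  have hψ : ψ = 0 := by
    ext γ
    have h1 := h (γ : SL(2, ℤ)) (x0 Γ)
    rw [tw, mem_smul_x0, sub_self, add_zero, coc_mem_x0] at h1
    simpa using h1
  refine ⟨hψ, fun x => ?_⟩
  have h1 := h x.out (x0 Γ)
  rw [tw, out_smul_x0, hψ] at h1
  simp only [coc, AddMonoidHom.zero_apply, zero_add] at h1
  linear_combination h1

theorem const_of_invariant (n : SL(2, ℤ) ⧸ Γ → ℂ) (hS : ∀ x, n (ModularGroup.S • x) = n x)
    (hT : ∀ x, n (ModularGroup.T • x) = n x) (x : SL(2, ℤ) ⧸ Γ) : n x = n (x0 Γ) := by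
  have key : ∀ (a : SL(2, ℤ)) (y : SL(2, ℤ) ⧸ Γ), n (a • y) = n y := by
    intro a
    have ha : a ∈ Subgroup.closure {ModularGroup.S, ModularGroup.T} := by
      rw [SpecialLinearGroup.SL2Z_generators]; trivial
    induction ha using Subgroup.closure_induction with
    | mem y hy =>
      rcases hy with rfl | hy
      · exact hS
      · rw [Set.mem_singleton_iff] at hy
        subst hy
        exact hT
    | one => intro y; rw [one_smul]
    | mul a b _ _ iha ihb => intro y; rw [mul_smul, iha, ihb]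
    | inv a _ iha => intro y; rw [← iha (a⁻¹ • y), smul_inv_smul]
  rw [← key x.out (x0 Γ), out_smul_x0]

section Sums

variable [Fintype (SL(2, ℤ) ⧸ Γ)]

theorem sum_mul_tw_eq_zero (ψ : Additive Γ →+ ℂ) (v : SL(2, ℤ) ⧸ Γ → ℂ) (a : SL(2, ℤ))
    (hfix : ∀ (n : ℕ) (x : SL(2, ℤ) ⧸ Γ), a ^ n • x = x → coc Γ ψ (a ^ n) x = 0)
    (h : SL(2, ℤ) ⧸ Γ → ℂ) (hh : ∀ x, h (a • x) = h x) :
    ∑ x, h x * tw Γ ψ v a x = 0 := by
  classical
  set n := Fintype.card (Equiv.Perm (SL(2, ℤ) ⧸ Γ)) with hn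
  have hnpos : 0 < n := Fintype.card_pos
  have hact : ∀ x : SL(2, ℤ) ⧸ Γ, a ^ n • x = x := by
    intro x
    have h1 : (MulAction.toPermHom SL(2, ℤ) (SL(2, ℤ) ⧸ Γ) a) ^ n = 1 := pow_card_eq_one
    rw [← map_pow] at h1
    have h2 := congrArg (fun e : Equiv.Perm (SL(2, ℤ) ⧸ Γ) => e x) h1
    simpa using h2
  have hhpow : ∀ (i : ℕ) (x : SL(2, ℤ) ⧸ Γ), h (a ^ i • x) = h x := by
    intro i
    induction i with
    | zero => intro x; simp
    | succ i ih => intro x; rw [pow_succ', mul_smul, hh, ih]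
  have hz : ∀ x : SL(2, ℤ) ⧸ Γ, tw Γ ψ v (a ^ n) x = 0 := by
    intro x
    rw [tw, hfix n x (hact x), hact x, sub_self, add_zero]
  have h1 : ∑ x, h x * tw Γ ψ v (a ^ n) x = 0 := by
    simp only [hz, mul_zero, Finset.sum_const_zero]
  have h2 : ∑ x, h x * tw Γ ψ v (a ^ n) x = n * ∑ x, h x * tw Γ ψ v a x := by
    simp only [tw_pow, Finset.mul_sum]
    rw [Finset.sum_comm]
    have : ∀ i ∈ Finset.range n, ∑ x, h x * tw Γ ψ v a (a ^ i • x) = ∑ x, h x * tw Γ ψ v a x := by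
      intro i _
      rw [← Equiv.sum_comp (MulAction.toPerm (a ^ i)) (fun x => h x * tw Γ ψ v a x)]
      simp only [MulAction.toPerm_apply, hhpow]
    rw [Finset.sum_congr rfl this]
    simp [Finset.mul_sum]
  rw [h1] at h2
  rcases mul_eq_zero.mp h2.symm with h3 | h3
  · exact absurd (Nat.cast_eq_zero.mp h3) hnpos.ne'
  · exact h3

end Sums



theorem S_pow_four : ModularGroup.S ^ 4 = 1 := by
  decide

theorem ST_pow_six : (ModularGroup.S * ModularGroup.T) ^ 6 = 1 := by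
  decide

theorem tw_add (ψ ψ' : Additive Γ →+ ℂ) (v v' : SL(2, ℤ) ⧸ Γ → ℂ) (a : SL(2, ℤ)) :
    tw Γ (ψ + ψ') (v + v') a = tw Γ ψ v a + tw Γ ψ' v' a := by
  funext x
  simp only [tw, coc, AddMonoidHom.add_apply, Pi.add_apply]
  ring

theorem tw_smul (c : ℂ) (ψ : Additive Γ →+ ℂ) (v : SL(2, ℤ) ⧸ Γ → ℂ) (a : SL(2, ℤ)) :
    tw Γ (c • ψ) (c • v) a = c • tw Γ ψ v a := by
  funext x
  simp only [tw, coc, AddMonoidHom.smul_apply, Pi.smul_apply, smul_eq_mul]
  ring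

section Final

variable [Fintype (SL(2, ℤ) ⧸ Γ)]

theorem tw_pair_mem {ψ : Additive Γ →+ ℂ} (hψ : IsParabolicHom Γ ψ) (v : SL(2, ℤ) ⧸ Γ → ℂ) :
    (tw Γ ψ v ModularGroup.S, tw Γ ψ v (ModularGroup.S * ModularGroup.T)) ∈
      Wsub (X := SL(2, ℤ) ⧸ Γ) ModularGroup.S ModularGroup.T (ModularGroup.S * ModularGroup.T) := by
  apply mem_Wsub_of
  · intro h hh
    refine sum_mul_tw_eq_zero Γ ψ v _ (fun n x hx => ?_) h hh
    exact coc_eq_zero_of_torsion Γ ψ (m := 4) (by norm_num)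
      (by rw [← pow_mul, mul_comm, pow_mul, S_pow_four, one_pow]) hx
  · intro h hh
    refine sum_mul_tw_eq_zero Γ ψ v _ (fun n x hx => ?_) h hh
    exact coc_eq_zero_of_torsion Γ ψ (m := 6) (by norm_num)
      (by rw [← pow_mul, mul_comm, pow_mul, ST_pow_six, one_pow]) hx
  · intro h hh
    have h1 := sum_mul_tw_eq_zero Γ ψ v ModularGroup.T
      (fun n x hx => coc_T_pow_eq_zero Γ hψ n hx) h hh
    rw [← h1]
    refine Finset.sum_congr rfl fun x _ => ?_
    rw [tw_mul]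
    ring

/-- the comparison map -/
noncomputable def Phi : (parabolicHoms ℂ Γ ℂ × (SL(2, ℤ) ⧸ Γ → ℂ)) →ₗ[ℂ]
    (Wsub (X := SL(2, ℤ) ⧸ Γ) ModularGroup.S ModularGroup.T (ModularGroup.S * ModularGroup.T)
      × ℂ) where
  toFun p := (⟨(tw Γ p.1.1 p.2 ModularGroup.S, tw Γ p.1.1 p.2 (ModularGroup.S * ModularGroup.T)),
    tw_pair_mem Γ p.1.2 p.2⟩, p.2 (x0 Γ))
  map_add' p q := by
    refine Prod.ext (Subtype.ext ?_) rfl
    refine Prod.ext ?_ ?_
    · exact tw_add Γ p.1.1 q.1.1 p.2 q.2 _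
    · exact tw_add Γ p.1.1 q.1.1 p.2 q.2 _
  map_smul' c p := by
    refine Prod.ext (Subtype.ext ?_) rfl
    refine Prod.ext ?_ ?_
    · exact tw_smul Γ c p.1.1 p.2 _
    · exact tw_smul Γ c p.1.1 p.2 _

theorem Phi_injective : Function.Injective (Phi Γ) := by
  rw [← LinearMap.ker_eq_bot, LinearMap.ker_eq_bot']
  rintro ⟨⟨ψ, hψ⟩, v⟩ h0
  have h1 : tw Γ ψ v ModularGroup.S = 0 := congrArg (fun q => q.1.1.1) h0
  have h2 : tw Γ ψ v (ModularGroup.S * ModularGroup.T) = 0 := congrArg (fun q => q.1.1.2) h0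
  have h3 : v (x0 Γ) = 0 := congrArg (fun q => q.2) h0
  have hS : ∀ x, tw Γ ψ v ModularGroup.S x = 0 := fun x => congrFun h1 x
  have hT : ∀ x, tw Γ ψ v ModularGroup.T x = 0 := by
    intro x
    have := congrFun h2 x
    rw [tw_mul, hS, zero_add] at this
    exact this
  obtain ⟨hψ0, hv⟩ := eq_zero_of_tw_eq_zero Γ (tw_eq_zero_of_gen Γ hS hT)
  refine Prod.ext (Subtype.ext hψ0) ?_
  funext x
  show v x = 0
  rw [hv x, h3]

theorem finiteDimensional_par : FiniteDimensional ℂ (parabolicHoms ℂ Γ ℂ) := by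
  have hinj : Function.Injective ((Phi Γ).comp (LinearMap.inl ℂ (parabolicHoms ℂ Γ ℂ)
      (SL(2, ℤ) ⧸ Γ → ℂ))) :=
    (Phi_injective Γ).comp LinearMap.inl_injective
  exact FiniteDimensional.of_injective _ hinj

theorem finrank_par_add_le :
    Module.finrank ℂ (parabolicHoms ℂ Γ ℂ) + (Nat.card (Orb (SL(2, ℤ) ⧸ Γ) ModularGroup.S)
      + Nat.card (Orb (SL(2, ℤ) ⧸ Γ) (ModularGroup.S * ModularGroup.T))
      + Nat.card (Orb (SL(2, ℤ) ⧸ Γ) ModularGroup.T)) ≤ Nat.card (SL(2, ℤ) ⧸ Γ) + 2 := by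
  have := finiteDimensional_par Γ
  have h1 := LinearMap.finrank_le_finrank_of_injective (Phi_injective Γ)
  rw [Module.finrank_prod, Module.finrank_prod, Module.finrank_fintype_fun_eq_card,
    Module.finrank_self, ← Nat.card_eq_fintype_card] at h1
  have h2 := finrank_Wsub_le (X := SL(2, ℤ) ⧸ Γ) ModularGroup.S ModularGroup.T
    (ModularGroup.S * ModularGroup.T) (x0 Γ) (const_of_invariant Γ)
  omega

end Final

/-- generic form: `Hom_par(Γ, ℂ)` is finite dimensional for any finite index `Γ`. -/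
theorem finiteDimensional_parabolicHoms_of_finiteIndex [Γ.FiniteIndex] :
    FiniteDimensional ℂ (parabolicHoms ℂ Γ ℂ) := by
  have : Fintype (SL(2, ℤ) ⧸ Γ) := Fintype.ofFinite _
  exact finiteDimensional_par Γ

/-- generic form of the bound `dim Hom_par(Γ, ℂ) + o_S + o_{ST} + o_T ≤ μ + 2`. -/
theorem finrank_parabolicHoms_add_le_of_finiteIndex [Γ.FiniteIndex] :
    Module.finrank ℂ (parabolicHoms ℂ Γ ℂ)
      + (Nat.card (MulAction.orbitRel.Quotient (Subgroup.zpowers ModularGroup.S) (SL(2, ℤ) ⧸ Γ))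
      + Nat.card (MulAction.orbitRel.Quotient
          (Subgroup.zpowers (ModularGroup.S * ModularGroup.T)) (SL(2, ℤ) ⧸ Γ))
      + Nat.card (MulAction.orbitRel.Quotient (Subgroup.zpowers ModularGroup.T) (SL(2, ℤ) ⧸ Γ)))
      ≤ Nat.card (SL(2, ℤ) ⧸ Γ) + 2 := by
  have : Fintype (SL(2, ℤ) ⧸ Γ) := Fintype.ofFinite _
  exact finrank_par_add_le Γ

end Fermat.Agent.S21.GroupBound

namespace Fermat.Agent.S21

open CongruenceSubgroup

theorem finiteDimensional_parabolicHoms (N : ℕ) [NeZero N] :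
    FiniteDimensional ℂ (parabolicHoms ℂ (Gamma0 N) ℂ) :=
  GroupBound.finiteDimensional_parabolicHoms_of_finiteIndex (Gamma0 N)

theorem finrank_parabolicHoms_le (N : ℕ) [NeZero N] :
    (Module.finrank ℂ (parabolicHoms ℂ (Gamma0 N) ℂ) : ℤ) ≤ twoGenus N := by
  have h := GroupBound.finrank_parabolicHoms_add_le_of_finiteIndex (Gamma0 N)
  unfold twoGenus orbitCount
  omega

end Fermat.Agent.S21
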