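import Fermat.Agent.S21.Wiring
import Fermat.Agent.S21.GroupBound

set_option autoImplicit false
open ModularCurve ModularCurve.Period CongruenceSubgroup
open scoped MatrixGroups

namespace Fermat.Agent.S21

variable (N : ℕ) [NeZero N]

instance instFiniteDimensionalCuspFormGamma0 : FiniteDimensional ℂ (CuspForm (Gamma0 N) 2) :=
  finiteDimensional_cuspForm N (finiteDimensional_parabolicHoms N)

/-- Upper bound `2 dim S₂(Γ₀(N)) ≤ 2g` in orbit-count form. -/
theorem two_mul_finrank_le_twoGenus :
    2 * (Module.finrank ℂ (CuspForm (Gamma0 N) 2) : ℤ) ≤ twoGenus N := by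
  have h1 := two_mul_finrank_le N (finiteDimensional_parabolicHoms N)
  have h2 := finrank_parabolicHoms_le N
  have h3 : (2 * (Module.finrank ℂ (CuspForm (Gamma0 N) 2) : ℤ))
      ≤ (Module.finrank ℂ (parabolicHoms ℂ (Gamma0 N) ℂ) : ℤ) := by exact_mod_cast h1
  exact h3.trans h2

/-- The same upper bound, in `ℕ`. -/
theorem upper_nat :
    2 * Module.finrank ℂ (CuspForm (Gamma0 N) 2) + orbitCount N ModularGroup.S
      + orbitCount N (ModularGroup.S * ModularGroup.T) + orbitCount N ModularGroup.T
      ≤ 2 + Nat.card (SL(2, ℤ) ⧸ Gamma0 N) := by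
  have h := two_mul_finrank_le_twoGenus N
  unfold twoGenus at h
  omega

/-- Eichler–Shimura from the lower bound `2g ≤ 2 dim S₂(Γ₀(N))`. -/
theorem result_of_lower
    (hlb : twoGenus N ≤ 2 * (Module.finrank ℂ (CuspForm (Gamma0 N) 2) : ℤ)) :
    Function.Injective (periodHomPair N)
      ∧ LinearMap.range (periodHomPair N) = parabolicHoms ℂ (Gamma0 N) ℂ :=
  result_of N (finiteDimensional_parabolicHoms N) (finrank_parabolicHoms_le N) hlb

end Fermat.Agent.S21
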