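import Fermat.Agent.S21.Primitive
import Fermat.Agent.S21.Injective

set_option autoImplicit false
open ModularCurve ModularCurve.Period UpperHalfPlane CongruenceSubgroup Filter Topology
open scoped MatrixGroups

namespace Fermat.Agent.S21

variable (N : ℕ) [NeZero N]

theorem periodHomPair_injective : Function.Injective (periodHomPair N) :=
  periodHomPair_injective_of N (exists_primitive N) (fun _ _ h => periodMap_apply h)
    (existsPeriodMapLinear N)

theorem range_periodHomPair_le :
    LinearMap.range (periodHomPair N) ≤ parabolicHoms ℂ (Gamma0 N) ℂ := by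
  obtain ⟨pml, hpml, hdef⟩ := periodHomPair_def N (existsPeriodMapLinear N)
  rintro _ ⟨⟨f, g⟩, rfl⟩
  have hf : pml f ∈ parabolicHoms ℂ (Gamma0 N) ℂ := by
    rw [hpml]; exact periodMap_mem_parabolicHoms N f
  have hg : pml g ∈ parabolicHoms ℂ (Gamma0 N) ℂ := by
    rw [hpml]; exact periodMap_mem_parabolicHoms N g
  rw [hdef]
  simp only [LinearMap.coprod_apply, LinearMap.comp_apply, LinearMap.add_apply,
    LinearMap.sub_apply, LinearMap.id_apply]
  exact Submodule.add_mem _
    (Submodule.add_mem _ hf (charInvolution_mem_parabolicHoms N ℂ ℂ hf))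
    (Submodule.sub_mem _ hg (charInvolution_mem_parabolicHoms N ℂ ℂ hg))

/-- The period pair map, corestricted to the parabolic homs. -/
noncomputable def periodHomPairPar :
    (CuspForm (Gamma0 N) 2 × CuspForm (Gamma0 N) 2) →ₗ[ℂ] parabolicHoms ℂ (Gamma0 N) ℂ :=
  (periodHomPair N).codRestrict _ fun x => range_periodHomPair_le N ⟨x, rfl⟩

theorem periodHomPairPar_injective : Function.Injective (periodHomPairPar N) := by
  intro x y h
  exact periodHomPair_injective N (congrArg Subtype.val h)

theorem finiteDimensional_cuspForm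
    (hfd : FiniteDimensional ℂ (parabolicHoms ℂ (Gamma0 N) ℂ)) :
    FiniteDimensional ℂ (CuspForm (Gamma0 N) 2) := by
  have h1 : FiniteDimensional ℂ (CuspForm (Gamma0 N) 2 × CuspForm (Gamma0 N) 2) :=
    FiniteDimensional.of_injective (periodHomPairPar N) (periodHomPairPar_injective N)
  exact FiniteDimensional.of_injective
    (LinearMap.inl ℂ (CuspForm (Gamma0 N) 2) (CuspForm (Gamma0 N) 2)) LinearMap.inl_injective

/-- Upper bound `2 dim S₂ ≤ dim Hom_par`. -/
theorem two_mul_finrank_le
    (hfd : FiniteDimensional ℂ (parabolicHoms ℂ (Gamma0 N) ℂ)) :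
    2 * Module.finrank ℂ (CuspForm (Gamma0 N) 2)
      ≤ Module.finrank ℂ (parabolicHoms ℂ (Gamma0 N) ℂ) := by
  have := finiteDimensional_cuspForm N hfd
  have h := LinearMap.finrank_le_finrank_of_injective (periodHomPairPar_injective N)
  rw [Module.finrank_prod] at h
  omega

theorem result_of
    (hfd : FiniteDimensional ℂ (parabolicHoms ℂ (Gamma0 N) ℂ))
    (hub : (Module.finrank ℂ (parabolicHoms ℂ (Gamma0 N) ℂ) : ℤ) ≤ twoGenus N)
    (hlb : twoGenus N ≤ 2 * (Module.finrank ℂ (CuspForm (Gamma0 N) 2) : ℤ)) :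
    Function.Injective (periodHomPair N)
      ∧ LinearMap.range (periodHomPair N) = parabolicHoms ℂ (Gamma0 N) ℂ := by
  refine ⟨periodHomPair_injective N, ?_⟩
  have := finiteDimensional_cuspForm N hfd
  refine Submodule.eq_of_le_of_finrank_le (range_periodHomPair_le N) ?_
  rw [LinearMap.finrank_range_of_inj (periodHomPair_injective N), Module.finrank_prod]
  have : (Module.finrank ℂ (parabolicHoms ℂ (Gamma0 N) ℂ) : ℤ)
      ≤ 2 * (Module.finrank ℂ (CuspForm (Gamma0 N) 2) : ℤ) := hub.trans hlb
  omega

end Fermat.Agent.S21
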